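import Fermat.Agent.Ribet.H704.I6Spec
import Fermat.Agent.A2.H609.Node

/-!
# RIBET row 38, WALL-p, crux (I6): leaf WPUR = `H704.I6.WildPurityStatement`  (helper7)

Wild purity at a node: a horizontally `p`-divisible `g ∉ 𝔭₁ ∪ 𝔭₂` which is a `p`-th power in the
`π`-adic completions of both branches is, up to `p`-th powers of the fraction field, a one-unit of
level `λ ^ p` (`λ ^ (p - 1) = p · unit`): `g · d₂ ^ p = d₁ ^ p · s ^ p · (1 + λ ^ p z)`.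

No completions, no hypothesis on the thickness.

* purity at the node (`A2.H609.exists_unit_mul_pow_of_node`): `g = ε₀ f ^ p`, `ε₀` a unit;
* fix approximate roots `hᵢ / rᵢ` of `ε₀` on the two branches modulo `π ^ (p e)`;
* successive approximation: for `j = 0, …, e` there is `s ∈ R` with `hᵢ - s rᵢ ∈ π ^ j R_{𝔭ᵢ}`
  on both branches.  Step: `(r' r) ^ p (ε₀ - s ^ p) = π ^ (j p) (a ^ p + π w)` on each branch, hence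
  `ε₀ - s ^ p = π ^ (j p) c` in `R`, `c` is a `p`-th power `βᵢ ^ p` modulo `𝔭ᵢ`, the two roots agree
  at the node (Frobenius is injective on the residue field) and glue to `b ∈ R`; `s + π ^ j b`.
* `j = e`: `ε₀ - s ^ p ∈ π ^ (p e) R = λ ^ p R`.
-/

set_option autoImplicit false

namespace Fermat.Agent.Ribet.H7

open Ideal
open Fermat.Agent.Ribet.H704.I6

section General

variable {R : Type*} [CommRing R]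

/-- The binomial expansion of an approximate root. -/
theorem wp_expand {p : ℕ} (hp : p.Prime) (π u s h r r' a t : R) (j K : ℕ)
    (h1 : r' * (h - s * r) = π ^ j * a) (h2 : u * r ^ p - h ^ p = π ^ K * t) :
    ∃ q : R, (r' * r) ^ p * (u - s ^ p) =
      π ^ (j * p) * a ^ p + (p : R) * π ^ j * (r' * s * r * a * q) + π ^ K * (r' ^ p * t) := by
  obtain ⟨q, hq⟩ := exists_add_pow_prime_eq hp (r' * s * r) (π ^ j * a)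
  have e1 : r' * h = r' * s * r + π ^ j * a := by linear_combination h1
  have e2 : (r' * h) ^ p = (r' * s * r) ^ p + (π ^ j * a) ^ p
      + (p : R) * (r' * s * r) * (π ^ j * a) * q := by rw [e1, hq]
  refine ⟨q, ?_⟩
  linear_combination r' ^ p * h2 + e2

/-- Divisibility by a power of `π` can be tested on the two branches. -/
theorem wp_dvd_of_branches [IsDomain R] {𝔭₁ 𝔭₂ : Ideal R} [h𝔭₁ : 𝔭₁.IsPrime]
    [h𝔭₂ : 𝔭₂.IsPrime] {π : R} (hπ0 : π ≠ 0) (hinf : 𝔭₁ ⊓ 𝔭₂ = Ideal.span {π}) :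
    ∀ (n : ℕ) (z r₁ r₂ : R), r₁ ∉ 𝔭₁ → r₂ ∉ 𝔭₂ → π ^ n ∣ r₁ * z → π ^ n ∣ r₂ * z →
      π ^ n ∣ z := by
  have hπ : π ∈ 𝔭₁ ⊓ 𝔭₂ := hinf ▸ Ideal.mem_span_singleton_self π
  intro n
  induction n with
  | zero =>
    intro z _ _ _ _ _ _
    simp
  | succ n ih =>
    intro z r₁ r₂ hr₁ hr₂ h₁ h₂
    have hz₁ : z ∈ 𝔭₁ := by
      have : r₁ * z ∈ 𝔭₁ := by
        obtain ⟨c, hc⟩ := h₁
        rw [hc, pow_succ, mul_assoc]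
        exact 𝔭₁.mul_mem_left _ (𝔭₁.mul_mem_right _ hπ.1)
      exact (h𝔭₁.mem_or_mem this).resolve_left hr₁
    have hz₂ : z ∈ 𝔭₂ := by
      have : r₂ * z ∈ 𝔭₂ := by
        obtain ⟨c, hc⟩ := h₂
        rw [hc, pow_succ, mul_assoc]
        exact 𝔭₂.mul_mem_left _ (𝔭₂.mul_mem_right _ hπ.2)
      exact (h𝔭₂.mem_or_mem this).resolve_left hr₂
    have hz : z ∈ Ideal.span {π} := hinf ▸ ⟨hz₁, hz₂⟩
    obtain ⟨z', rfl⟩ := Ideal.mem_span_singleton'.mp hz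
    have h₁' : π ^ n ∣ r₁ * z' := by
      obtain ⟨c, hc⟩ := h₁
      exact ⟨c, mul_right_cancel₀ hπ0 (by linear_combination hc)⟩
    have h₂' : π ^ n ∣ r₂ * z' := by
      obtain ⟨c, hc⟩ := h₂
      exact ⟨c, mul_right_cancel₀ hπ0 (by linear_combination hc)⟩
    obtain ⟨d, hd⟩ := ih z' r₁ r₂ hr₁ hr₂ h₁' h₂'
    exact ⟨d, by rw [hd]; ring⟩

/-- On a branch which is a valuation ring: `a ^ p = ρ ^ p c` modulo `𝔭` with `ρ ∉ 𝔭` gives a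
`p`-th root of `c` modulo `𝔭`, namely `a / ρ`. -/
theorem wp_exists_root (𝔭 : Ideal R) [𝔭.IsPrime] [ValuationRing (R ⧸ 𝔭)]
    {p : ℕ} (hp : p ≠ 0) (a ρ c : R) (hρ : ρ ∉ 𝔭) (h : ρ ^ p * c - a ^ p ∈ 𝔭) :
    ∃ β : R, a - ρ * β ∈ 𝔭 ∧ β ^ p - c ∈ 𝔭 := by
  have hρ0 : Ideal.Quotient.mk 𝔭 ρ ≠ 0 := fun h0 => hρ (Ideal.Quotient.eq_zero_iff_mem.mp h0)
  have hq : Ideal.Quotient.mk 𝔭 ρ ^ p * Ideal.Quotient.mk 𝔭 c = Ideal.Quotient.mk 𝔭 a ^ p := by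
    rw [← map_pow, ← map_pow, ← map_mul]
    exact Ideal.Quotient.eq.mpr h
  have hdvd : Ideal.Quotient.mk 𝔭 ρ ∣ Ideal.Quotient.mk 𝔭 a := by
    rcases ValuationRing.dvd_total (Ideal.Quotient.mk 𝔭 ρ) (Ideal.Quotient.mk 𝔭 a) with h1 | h1
    · exact h1
    · obtain ⟨w, hw⟩ := h1
      have ha0 : Ideal.Quotient.mk 𝔭 a ≠ 0 := by
        intro h0
        rw [h0, zero_mul] at hw
        exact hρ0 hw
      have h1 : Ideal.Quotient.mk 𝔭 a ^ p * (w ^ p * Ideal.Quotient.mk 𝔭 c) =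
          Ideal.Quotient.mk 𝔭 a ^ p * 1 := by
        calc Ideal.Quotient.mk 𝔭 a ^ p * (w ^ p * Ideal.Quotient.mk 𝔭 c)
            = (Ideal.Quotient.mk 𝔭 a * w) ^ p * Ideal.Quotient.mk 𝔭 c := by ring
          _ = Ideal.Quotient.mk 𝔭 ρ ^ p * Ideal.Quotient.mk 𝔭 c := by rw [← hw]
          _ = Ideal.Quotient.mk 𝔭 a ^ p := hq
          _ = Ideal.Quotient.mk 𝔭 a ^ p * 1 := (mul_one _).symm
      have h2 : w ^ p * Ideal.Quotient.mk 𝔭 c = 1 := mul_left_cancel₀ (pow_ne_zero _ ha0) h1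
      have hw' : IsUnit w := (isUnit_pow_iff hp).mp (IsUnit.of_mul_eq_one _ h2)
      obtain ⟨w', hw'⟩ := hw'
      refine ⟨(↑w'⁻¹ : (R ⧸ 𝔭)), ?_⟩
      rw [hw, ← hw', mul_assoc, Units.mul_inv, mul_one]
  obtain ⟨β', hβ'⟩ := hdvd
  obtain ⟨β, rfl⟩ := Ideal.Quotient.mk_surjective β'
  refine ⟨β, ?_, ?_⟩
  · rw [← Ideal.Quotient.eq, map_mul]
    exact hβ'
  · rw [← Ideal.Quotient.eq, map_pow]
    have h1 : Ideal.Quotient.mk 𝔭 ρ ^ p * Ideal.Quotient.mk 𝔭 β ^ p =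
        Ideal.Quotient.mk 𝔭 ρ ^ p * Ideal.Quotient.mk 𝔭 c := by
      rw [hq, hβ', mul_pow]
    exact mul_left_cancel₀ (pow_ne_zero _ hρ0) h1

/-- Gluing two `p`-th roots of `c` on the branches along the node. -/
theorem wp_glue [IsLocalRing R] {𝔭₁ 𝔭₂ : Ideal R}
    (hsup : 𝔭₁ ⊔ 𝔭₂ = IsLocalRing.maximalIdeal R)
    {p : ℕ} (hp : p.Prime) (hpm : (p : R) ∈ IsLocalRing.maximalIdeal R) (β₁ β₂ c : R)
    (h₁ : β₁ ^ p - c ∈ 𝔭₁) (h₂ : β₂ ^ p - c ∈ 𝔭₂) :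
    ∃ b : R, b - β₁ ∈ 𝔭₁ ∧ b - β₂ ∈ 𝔭₂ := by
  have hm : β₁ ^ p - β₂ ^ p ∈ IsLocalRing.maximalIdeal R := by
    rw [← hsup]
    have : β₁ ^ p - β₂ ^ p = (β₁ ^ p - c) + -(β₂ ^ p - c) := by ring
    rw [this]
    exact Ideal.add_mem _ (Ideal.mem_sup_left h₁) (Ideal.mem_sup_right (𝔭₂.neg_mem h₂))
  obtain ⟨q, hq⟩ := exists_add_pow_prime_eq hp (β₁ - β₂) β₂
  have hpow : (β₁ - β₂) ^ p ∈ IsLocalRing.maximalIdeal R := by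
    have : (β₁ - β₂) ^ p = (β₁ ^ p - β₂ ^ p) - (p : R) * ((β₁ - β₂) * β₂ * q) := by
      have h3 : (β₁ - β₂ + β₂) ^ p = β₁ ^ p := by rw [sub_add_cancel]
      linear_combination h3 - hq
    rw [this]
    exact Ideal.sub_mem _ hm (Ideal.mul_mem_right _ _ hpm)
  have hmem : β₁ - β₂ ∈ IsLocalRing.maximalIdeal R :=
    (IsLocalRing.maximalIdeal.isMaximal R).isPrime.mem_of_pow_mem p hpow
  rw [← hsup] at hmem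
  obtain ⟨u₁, hu₁, u₂, hu₂, hu⟩ := Submodule.mem_sup.mp hmem
  refine ⟨β₁ - u₁, ?_, ?_⟩
  · have : β₁ - u₁ - β₁ = -u₁ := by ring
    rw [this]
    exact 𝔭₁.neg_mem hu₁
  · have : β₁ - u₁ - β₂ = u₂ := by linear_combination -hu
    rw [this]
    exact hu₂

end General

section Node

variable {R : Type*} [CommRing R] [IsDomain R] [IsLocalRing R]
  {𝔭₁ 𝔭₂ : Ideal R} {π x y : R}

theorem wp_pi_ne_zero (hn : IsNode 𝔭₁ 𝔭₂ π x y) : π ≠ 0 := by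
  rintro rfl
  have hxy : x * y ∈ 𝔭₁ ⊓ 𝔭₂ := ⟨𝔭₁.mul_mem_left _ hn.hy, 𝔭₂.mul_mem_right _ hn.hx⟩
  rw [hn.inf_eq, Ideal.mem_span_singleton'] at hxy
  obtain ⟨a, ha⟩ := hxy
  rw [mul_zero] at ha
  rcases mul_eq_zero.mp ha.symm with h | h
  · exact hn.hx₁ (h ▸ 𝔭₁.zero_mem)
  · exact hn.hy₂ (h ▸ 𝔭₂.zero_mem)

omit [IsDomain R] [IsLocalRing R] in
/-- A branch of a node is a discrete valuation ring. -/
theorem wp_isDVR (𝔭 : Ideal R) [𝔭.IsPrime] (ϖ : R)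
    (hnu : ¬ IsUnit (Ideal.Quotient.mk 𝔭 ϖ)) (hϖ : ϖ ∉ 𝔭)
    (hunif : ∀ a : R, a ∉ 𝔭 → ∃ s : ℕ, OrdOn 𝔭 ϖ a s) :
    IsDiscreteValuationRing (R ⧸ 𝔭) := by
  have hϖ0 : Ideal.Quotient.mk 𝔭 ϖ ≠ 0 := fun h0 => hϖ (Ideal.Quotient.eq_zero_iff_mem.mp h0)
  have hfac : ∀ z : R ⧸ 𝔭, z ≠ 0 → ∃ n : ℕ, Associated (Ideal.Quotient.mk 𝔭 ϖ ^ n) z := by
    intro z hz
    obtain ⟨a, rfl⟩ := Ideal.Quotient.mk_surjective z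
    have ha : a ∉ 𝔭 := fun h => hz (Ideal.Quotient.eq_zero_iff_mem.mpr h)
    obtain ⟨s, hs⟩ := hunif a ha
    exact ⟨s, hs.symm⟩
  apply IsDiscreteValuationRing.ofHasUnitMulPowIrreducibleFactorization
  refine ⟨Ideal.Quotient.mk 𝔭 ϖ, ?_, fun {z} hz => hfac z hz⟩
  rw [irreducible_iff]
  refine ⟨hnu, fun a b hab => ?_⟩
  have ha0 : a ≠ 0 := by
    rintro rfl
    rw [zero_mul] at hab
    exact hϖ0 hab
  have hb0 : b ≠ 0 := by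
    rintro rfl
    rw [mul_zero] at hab
    exact hϖ0 hab
  obtain ⟨i, hi⟩ := hfac a ha0
  obtain ⟨j, hj⟩ := hfac b hb0
  rcases Nat.eq_zero_or_pos i with h0 | h0
  · left
    subst h0
    rw [pow_zero] at hi
    exact hi.isUnit_iff.mp isUnit_one |> fun h => h
  rcases Nat.eq_zero_or_pos j with h1 | h1
  · right
    subst h1
    rw [pow_zero] at hj
    exact hj.isUnit_iff.mp isUnit_one |> fun h => h
  exfalso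
  obtain ⟨ua, hua⟩ := hi
  obtain ⟨ub, hub⟩ := hj
  obtain ⟨i', rfl⟩ : ∃ i', i = i' + 1 := ⟨i - 1, by omega⟩
  obtain ⟨j', rfl⟩ : ∃ j', j = j' + 1 := ⟨j - 1, by omega⟩
  apply hnu
  have h2 : Ideal.Quotient.mk 𝔭 ϖ * (Ideal.Quotient.mk 𝔭 ϖ ^ (i' + j' + 1) * (ua * ub)) =
      Ideal.Quotient.mk 𝔭 ϖ * 1 := by
    rw [mul_one]
    conv_rhs => rw [hab, ← hua, ← hub]
    ring
  have h3 := mul_left_cancel₀ hϖ0 h2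
  rw [pow_succ, mul_assoc, mul_comm, mul_assoc] at h3
  exact IsUnit.of_mul_eq_one _ h3

/-- `h / r` is approximated by `s` modulo `π ^ j` on the branch `𝔭`. -/
def WpApprox (𝔭 : Ideal R) (π h r s : R) (j : ℕ) : Prop :=
  ∃ r' a : R, r' ∉ 𝔭 ∧ r' * (h - s * r) = π ^ j * a

omit [IsDomain R] [IsLocalRing R] in
theorem wp_branch {p : ℕ} (hp : p.Prime) (π u s h r t : R) (j K : ℕ) (ν : R)
    (h2 : u * r ^ p - h ^ p = π ^ K * t) (hK : j * p + 1 ≤ K)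
    (hpπ : (p : R) * π ^ j = π ^ (j * p + 1) * ν)
    (r' a : R) (h1 : r' * (h - s * r) = π ^ j * a) :
    ∃ w : R, (r' * r) ^ p * (u - s ^ p) = π ^ (j * p) * (a ^ p + π * w) := by
  obtain ⟨q, hq⟩ := wp_expand hp π u s h r r' a t j K h1 h2
  obtain ⟨m, rfl⟩ := Nat.exists_eq_add_of_le hK
  refine ⟨ν * (r' * s * r * a * q) + π ^ m * (r' ^ p * t), ?_⟩
  rw [hq, hpπ]
  ring

/-- The successive approximation step. -/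
theorem wp_step (hn : IsNode 𝔭₁ 𝔭₂ π x y) [h𝔭₁ : 𝔭₁.IsPrime] [h𝔭₂ : 𝔭₂.IsPrime]
    [ValuationRing (R ⧸ 𝔭₁)] [ValuationRing (R ⧸ 𝔭₂)] {p : ℕ} (hp : p.Prime)
    (hpm : (p : R) ∈ IsLocalRing.maximalIdeal R)
    (u h₁ r₁ t₁ h₂ r₂ t₂ : R) (j K : ℕ) (ν : R)
    (hr₁ : r₁ ∉ 𝔭₁) (hr₂ : r₂ ∉ 𝔭₂)
    (e₁ : u * r₁ ^ p - h₁ ^ p = π ^ K * t₁) (e₂ : u * r₂ ^ p - h₂ ^ p = π ^ K * t₂)
    (hK : j * p + 1 ≤ K) (hpπ : (p : R) * π ^ j = π ^ (j * p + 1) * ν)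
    (s : R) (A₁ : WpApprox 𝔭₁ π h₁ r₁ s j) (A₂ : WpApprox 𝔭₂ π h₂ r₂ s j) :
    ∃ s' : R, WpApprox 𝔭₁ π h₁ r₁ s' (j + 1) ∧ WpApprox 𝔭₂ π h₂ r₂ s' (j + 1) := by
  have hπ0 := wp_pi_ne_zero hn
  have hπ : π ∈ 𝔭₁ ⊓ 𝔭₂ := hn.inf_eq ▸ Ideal.mem_span_singleton_self π
  obtain ⟨r₁', a₁, hr₁', f₁⟩ := A₁
  obtain ⟨r₂', a₂, hr₂', f₂⟩ := A₂
  obtain ⟨w₁, g₁⟩ := wp_branch hp π u s h₁ r₁ t₁ j K ν e₁ hK hpπ r₁' a₁ f₁
  obtain ⟨w₂, g₂⟩ := wp_branch hp π u s h₂ r₂ t₂ j K ν e₂ hK hpπ r₂' a₂ f₂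
  have hρ₁ : r₁' * r₁ ∉ 𝔭₁ := fun h => (h𝔭₁.mem_or_mem h).elim hr₁' hr₁
  have hρ₂ : r₂' * r₂ ∉ 𝔭₂ := fun h => (h𝔭₂.mem_or_mem h).elim hr₂' hr₂
  have hρ₁p : (r₁' * r₁) ^ p ∉ 𝔭₁ := fun h => hρ₁ (h𝔭₁.mem_of_pow_mem _ h)
  have hρ₂p : (r₂' * r₂) ^ p ∉ 𝔭₂ := fun h => hρ₂ (h𝔭₂.mem_of_pow_mem _ h)
  obtain ⟨c, hc⟩ : π ^ (j * p) ∣ u - s ^ p :=
    wp_dvd_of_branches hπ0 hn.inf_eq (j * p) (u - s ^ p) _ _ hρ₁p hρ₂p ⟨_, g₁⟩ ⟨_, g₂⟩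
  have k₁ : (r₁' * r₁) ^ p * c = a₁ ^ p + π * w₁ :=
    mul_left_cancel₀ (pow_ne_zero (j * p) hπ0) (by rw [← g₁, hc]; ring)
  have k₂ : (r₂' * r₂) ^ p * c = a₂ ^ p + π * w₂ :=
    mul_left_cancel₀ (pow_ne_zero (j * p) hπ0) (by rw [← g₂, hc]; ring)
  obtain ⟨β₁, hβ₁a, hβ₁c⟩ := wp_exists_root 𝔭₁ hp.ne_zero a₁ (r₁' * r₁) c hρ₁ (by
    rw [show (r₁' * r₁) ^ p * c - a₁ ^ p = π * w₁ by linear_combination k₁]
    exact 𝔭₁.mul_mem_right _ hπ.1)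
  obtain ⟨β₂, hβ₂a, hβ₂c⟩ := wp_exists_root 𝔭₂ hp.ne_zero a₂ (r₂' * r₂) c hρ₂ (by
    rw [show (r₂' * r₂) ^ p * c - a₂ ^ p = π * w₂ by linear_combination k₂]
    exact 𝔭₂.mul_mem_right _ hπ.2)
  obtain ⟨b, hb₁, hb₂⟩ := wp_glue hn.sup_eq hp hpm β₁ β₂ c hβ₁c hβ₂c
  refine ⟨s + π ^ j * b, ?_, ?_⟩
  · have hmem : a₁ - r₁' * r₁ * b ∈ 𝔭₁ := by
      have : a₁ - r₁' * r₁ * b = (a₁ - r₁' * r₁ * β₁) - r₁' * r₁ * (b - β₁) := by ring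
      rw [this]
      exact 𝔭₁.sub_mem hβ₁a (𝔭₁.mul_mem_left _ hb₁)
    have hx : x * (a₁ - r₁' * r₁ * b) ∈ 𝔭₁ ⊓ 𝔭₂ :=
      ⟨𝔭₁.mul_mem_left _ hmem, 𝔭₂.mul_mem_right _ hn.hx⟩
    rw [hn.inf_eq, Ideal.mem_span_singleton'] at hx
    obtain ⟨a', ha'⟩ := hx
    refine ⟨x * r₁', a', fun h => (h𝔭₁.mem_or_mem h).elim hn.hx₁ hr₁', ?_⟩
    linear_combination x * f₁ - π ^ j * ha'
  · have hmem : a₂ - r₂' * r₂ * b ∈ 𝔭₂ := by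
      have : a₂ - r₂' * r₂ * b = (a₂ - r₂' * r₂ * β₂) - r₂' * r₂ * (b - β₂) := by ring
      rw [this]
      exact 𝔭₂.sub_mem hβ₂a (𝔭₂.mul_mem_left _ hb₂)
    have hy : y * (a₂ - r₂' * r₂ * b) ∈ 𝔭₁ ⊓ 𝔭₂ :=
      ⟨𝔭₁.mul_mem_right _ hn.hy, 𝔭₂.mul_mem_left _ hmem⟩
    rw [hn.inf_eq, Ideal.mem_span_singleton'] at hy
    obtain ⟨a', ha'⟩ := hy
    refine ⟨y * r₂', a', fun h => (h𝔭₂.mem_or_mem h).elim hn.hy₂ hr₂', ?_⟩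
    linear_combination y * f₂ - π ^ j * ha'

theorem wp_exp_arith (p e j : ℕ) (hp : 2 ≤ p) (hj : j < e) :
    ∃ n, e * (p - 1) + j = j * p + 1 + n := by
  obtain ⟨q, rfl⟩ : ∃ q, p = q + 2 := ⟨p - 2, by omega⟩
  obtain ⟨m, rfl⟩ : ∃ m, e = j + 1 + m := ⟨e - j - 1, by omega⟩
  refine ⟨q + m * (q + 1), ?_⟩
  have : q + 2 - 1 = q + 1 := rfl
  rw [this]
  ring

end Node

section Main

/-- The core: a unit which is a `p`-th power modulo `π ^ (e p)` on both branches is a `p`-th power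
modulo `π ^ (e p)`. -/
theorem wp_core {R : Type*} [CommRing R] [IsDomain R] [IsLocalRing R]
    {𝔭₁ 𝔭₂ : Ideal R} {π x y : R} (hn : IsNode 𝔭₁ 𝔭₂ π x y)
    [h𝔭₁ : 𝔭₁.IsPrime] [h𝔭₂ : 𝔭₂.IsPrime]
    [ValuationRing (R ⧸ 𝔭₁)] [ValuationRing (R ⧸ 𝔭₂)] {p : ℕ} (hp : p.Prime)
    (e : ℕ) (he : 0 < e) (ν : R) (hpR : (p : R) = ν * π ^ (e * (p - 1)))
    (u : R) (hu : IsUnit u)
    (H₁ : ∃ h r t : R, r ∉ 𝔭₁ ∧ u * r ^ p - h ^ p = π ^ (e * p) * t)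
    (H₂ : ∃ h r t : R, r ∉ 𝔭₂ ∧ u * r ^ p - h ^ p = π ^ (e * p) * t) :
    ∃ s c : R, IsUnit s ∧ u = s ^ p + π ^ (e * p) * c := by
  have hπ0 := wp_pi_ne_zero hn
  have hπ : π ∈ 𝔭₁ ⊓ 𝔭₂ := hn.inf_eq ▸ Ideal.mem_span_singleton_self π
  have hπm : π ∈ IsLocalRing.maximalIdeal R := hn.sup_eq ▸ Ideal.mem_sup_left hπ.1
  have hp2 := hp.two_le
  have hpm : (p : R) ∈ IsLocalRing.maximalIdeal R := by
    rw [hpR]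
    exact Ideal.mul_mem_left _ _
      (Ideal.pow_mem_of_mem _ hπm _ (Nat.mul_pos he (by omega)))
  obtain ⟨h₁, r₁, t₁, hr₁, e₁⟩ := H₁
  obtain ⟨h₂, r₂, t₂, hr₂, e₂⟩ := H₂
  have ind : ∀ j, j ≤ e → ∃ s, WpApprox 𝔭₁ π h₁ r₁ s j ∧ WpApprox 𝔭₂ π h₂ r₂ s j := by
    intro j
    induction j with
    | zero =>
      intro _
      refine ⟨0, ⟨1, h₁ - 0 * r₁, fun h => h𝔭₁.ne_top ((Ideal.eq_top_iff_one _).mpr h), by ring⟩,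
        ⟨1, h₂ - 0 * r₂, fun h => h𝔭₂.ne_top ((Ideal.eq_top_iff_one _).mpr h), by ring⟩⟩
    | succ j ih =>
      intro hj
      obtain ⟨s, A₁, A₂⟩ := ih (by omega)
      obtain ⟨n, hn'⟩ := wp_exp_arith p e j hp2 (by omega)
      have hpπ : (p : R) * π ^ j = π ^ (j * p + 1) * (ν * π ^ n) := by
        rw [hpR, mul_assoc, ← pow_add, hn', pow_add]
        ring
      have hK : j * p + 1 ≤ e * p :=
        calc j * p + 1 ≤ j * p + p := by omega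
          _ = (j + 1) * p := by ring
          _ ≤ e * p := Nat.mul_le_mul_right p hj
      exact wp_step hn hp hpm u h₁ r₁ t₁ h₂ r₂ t₂ j (e * p) (ν * π ^ n) hr₁ hr₂ e₁ e₂ hK hpπ
        s A₁ A₂
  obtain ⟨s, ⟨r₁', a₁, hr₁', f₁⟩, ⟨r₂', a₂, hr₂', f₂⟩⟩ := ind e le_rfl
  obtain ⟨q₁, E₁⟩ := wp_expand hp π u s h₁ r₁ r₁' a₁ t₁ e (e * p) f₁ e₁
  obtain ⟨q₂, E₂⟩ := wp_expand hp π u s h₂ r₂ r₂' a₂ t₂ e (e * p) f₂ e₂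
  have hpe : (p : R) * π ^ e = π ^ (e * p) * ν := by
    have h1 : e * (p - 1) + e = e * p := by
      obtain ⟨q, rfl⟩ : ∃ q, p = q + 1 := ⟨p - 1, by omega⟩
      have : q + 1 - 1 = q := rfl
      rw [this]
      ring
    rw [hpR, mul_assoc, ← pow_add, h1]
    ring
  have hρ₁p : (r₁' * r₁) ^ p ∉ 𝔭₁ := fun h =>
    (h𝔭₁.mem_or_mem (h𝔭₁.mem_of_pow_mem _ h)).elim hr₁' hr₁
  have hρ₂p : (r₂' * r₂) ^ p ∉ 𝔭₂ := fun h =>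
    (h𝔭₂.mem_or_mem (h𝔭₂.mem_of_pow_mem _ h)).elim hr₂' hr₂
  have d₁ : π ^ (e * p) ∣ (r₁' * r₁) ^ p * (u - s ^ p) :=
    ⟨a₁ ^ p + ν * (r₁' * s * r₁ * a₁ * q₁) + r₁' ^ p * t₁, by rw [E₁, hpe]; ring⟩
  have d₂ : π ^ (e * p) ∣ (r₂' * r₂) ^ p * (u - s ^ p) :=
    ⟨a₂ ^ p + ν * (r₂' * s * r₂ * a₂ * q₂) + r₂' ^ p * t₂, by rw [E₂, hpe]; ring⟩
  obtain ⟨c, hc⟩ := wp_dvd_of_branches hπ0 hn.inf_eq (e * p) (u - s ^ p) _ _ hρ₁p hρ₂p d₁ d₂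
  have husc : u = s ^ p + π ^ (e * p) * c := by linear_combination hc
  refine ⟨s, c, ?_, husc⟩
  by_contra hs
  have hsm : s ∈ IsLocalRing.maximalIdeal R := (IsLocalRing.mem_maximalIdeal s).mpr hs
  have hum : u ∈ IsLocalRing.maximalIdeal R := by
    rw [husc]
    exact Ideal.add_mem _ (Ideal.pow_mem_of_mem _ hsm _ hp.pos)
      (Ideal.mul_mem_right _ _ (Ideal.pow_mem_of_mem _ hπm _ (Nat.mul_pos he hp.pos)))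
  exact (IsLocalRing.mem_maximalIdeal u).mp hum hu

/-- **WPUR** (wild purity at a node). -/
theorem wildPurity : WildPurityStatement := by
  intro R _ _ _ _ _ 𝔭₁ 𝔭₂ π x y hn p hp lam ε η e hε hlam hη he hlamπ g hg₁ hg₂ hHor H₁ H₂
  have h𝔭₁ := hn.prime₁
  have h𝔭₂ := hn.prime₂
  have : IsDiscreteValuationRing (R ⧸ 𝔭₁) := wp_isDVR 𝔭₁ x hn.nonunit₁ hn.hx₁ hn.unif₁
  have : IsDiscreteValuationRing (R ⧸ 𝔭₂) := wp_isDVR 𝔭₂ y hn.nonunit₂ hn.hy₂ hn.unif₂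
  have hπ : π ∈ 𝔭₁ ⊓ 𝔭₂ := hn.inf_eq ▸ Ideal.mem_span_singleton_self π
  -- the reductions of `g` are `p`-th powers
  have H2₁ : ∃ v : R ⧸ 𝔭₁, Associated (v ^ p) (Ideal.Quotient.mk 𝔭₁ g) := by
    obtain ⟨h, r, t, hr, hk⟩ := H₁ 1
    obtain ⟨β, -, hβ⟩ := wp_exists_root 𝔭₁ hp.ne_zero h r g hr (by
      rw [show r ^ p * g - h ^ p = π * t by linear_combination hk]
      exact 𝔭₁.mul_mem_right _ hπ.1)
    refine ⟨Ideal.Quotient.mk 𝔭₁ β, ?_⟩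
    rw [← map_pow, Ideal.Quotient.eq.mpr hβ]
  have H2₂ : ∃ v : R ⧸ 𝔭₂, Associated (v ^ p) (Ideal.Quotient.mk 𝔭₂ g) := by
    obtain ⟨h, r, t, hr, hk⟩ := H₂ 1
    obtain ⟨β, -, hβ⟩ := wp_exists_root 𝔭₂ hp.ne_zero h r g hr (by
      rw [show r ^ p * g - h ^ p = π * t by linear_combination hk]
      exact 𝔭₂.mul_mem_right _ hπ.2)
    refine ⟨Ideal.Quotient.mk 𝔭₂ β, ?_⟩
    rw [← map_pow, Ideal.Quotient.eq.mpr hβ]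
  -- purity at the node
  obtain ⟨f, ε₀, hgf⟩ := Fermat.Agent.A2.H609.exists_unit_mul_pow_of_node hp.ne_zero 𝔭₁ 𝔭₂
    hn.inf_eq hn.sup_eq hg₁ hg₂ hHor H2₁ H2₂
  have hf₁ : f ∉ 𝔭₁ := fun h =>
    hg₁ (by rw [hgf]; exact 𝔭₁.mul_mem_left _ (Ideal.pow_mem_of_mem _ h _ hp.pos))
  have hf₂ : f ∉ 𝔭₂ := fun h =>
    hg₂ (by rw [hgf]; exact 𝔭₂.mul_mem_left _ (Ideal.pow_mem_of_mem _ h _ hp.pos))
  have hf0 : f ≠ 0 := fun h => hf₁ (h ▸ 𝔭₁.zero_mem)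
  obtain ⟨ε', hε'⟩ := hε.exists_right_inv
  obtain ⟨η', hη'⟩ := hη.exists_right_inv
  have hpR : (p : R) = (η ^ (p - 1) * ε') * π ^ (e * (p - 1)) := by
    have h1 : lam ^ (p - 1) * ε' = p := by rw [hlam, mul_assoc, hε', mul_one]
    rw [← h1, hlamπ, mul_pow, ← pow_mul]
    ring
  have K₁ : ∃ h r t : R, r ∉ 𝔭₁ ∧ (ε₀ : R) * r ^ p - h ^ p = π ^ (e * p) * t := by
    obtain ⟨h, r, t, hr, hk⟩ := H₁ (e * p)
    exact ⟨h, f * r, t, fun h' => (h𝔭₁.mem_or_mem h').elim hf₁ hr, by rw [← hk, hgf]; ring⟩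
  have K₂ : ∃ h r t : R, r ∉ 𝔭₂ ∧ (ε₀ : R) * r ^ p - h ^ p = π ^ (e * p) * t := by
    obtain ⟨h, r, t, hr, hk⟩ := H₂ (e * p)
    exact ⟨h, f * r, t, fun h' => (h𝔭₂.mem_or_mem h').elim hf₂ hr, by rw [← hk, hgf]; ring⟩
  obtain ⟨s, c, hs, hsc⟩ := wp_core hn hp e he _ hpR (ε₀ : R) ε₀.isUnit K₁ K₂
  obtain ⟨s', hs'⟩ := hs.exists_right_inv
  have h1 : (η * η') ^ p = 1 := by rw [hη', one_pow]
  have h2 : (s * s') ^ p = 1 := by rw [hs', one_pow]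
  refine ⟨f, 1, s, c * η' ^ p * s' ^ p, hf0, one_ne_zero, hs, ?_⟩
  rw [hgf, hlamπ]
  linear_combination f ^ p * hsc - f ^ p * π ^ (e * p) * c * (s * s') ^ p * h1
    - f ^ p * π ^ (e * p) * c * h2

end Main

end Fermat.Agent.Ribet.H7
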