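import Fermat.Agent.Ribet.H868.TameNode
import Fermat.Agent.Ribet.H704.CoreOutSpec

/-!
# RIBET row 38, WALL-p, (S4) CORE-OUT, leaf (A3) NODE-PURE, tame thickness (helper7)

`nodePureTame : H704.CoreOut.NodePureTameStatement` (frozen in `Ribet/H704/CoreOutSpec.lean`).

Node ring `R`, unit pair `(D, D')` of exponent `N` prime to `m`, `u ∈ Kˣ` horizontally
`m`-divisible with `v₁(u) ≡ v₂(u) (mod m)`.  Then `u = π ^ a · ε · d ^ m` with `ε ∈ Rˣ`.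

Proof.  `H868.tame_node` (node relation + node symmetry + purity) gives
`u ^ N · D ^ (v₁ - v₂) · π ^ (- N v₁) · d₀ ^ m = ε₀ ∈ Rˣ`.  With `v₁ - v₂ = m c` this reads
`u ^ N = ε₀ · π ^ (N v₁) · (D ^ (-c) d₀⁻¹) ^ m`; Bezout `α N + β m = 1` gives
`u = π ^ (N v₁ α) · ε₀ ^ α · ((D ^ (-c) d₀⁻¹) ^ α · u ^ β) ^ m`.
-/

set_option autoImplicit false
set_option linter.unusedSectionVars false

namespace Fermat.Agent.Ribet.H7

open Fermat.Agent.Ribet.H704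

/-- Field bookkeeping for `nodePureTame`: extraction of the `N`-th root by Bezout. -/
theorem npt_bezout {K : Type*} [Field K] {u P Dk d₀ E : K} (hu : u ≠ 0) (hP : P ≠ 0)
    (hDk : Dk ≠ 0) (hd₀ : d₀ ≠ 0) {N m : ℕ} {v₁ v₂ c α β : ℤ} (hc : v₁ - v₂ = m * c)
    (hαβ : α * N + β * m = 1)
    (hG : u ^ N * Dk ^ (v₁ - v₂) * P ^ (-(N : ℤ) * v₁) * d₀ ^ m = E) :
    u = P ^ ((N : ℤ) * v₁ * α) * E ^ α * ((Dk ^ (-c) * d₀⁻¹) ^ α * u ^ β) ^ m := by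
  set W : K := Dk ^ (-c) * d₀⁻¹ with hW
  have hWm : W ^ m = (Dk ^ (v₁ - v₂))⁻¹ * (d₀ ^ m)⁻¹ := by
    rw [hW, mul_pow, inv_pow, ← zpow_natCast (Dk ^ (-c)) m, ← zpow_mul, hc, ← zpow_neg]
    congr 2
    ring
  have hA : Dk ^ (v₁ - v₂) ≠ 0 := zpow_ne_zero _ hDk
  have hC : d₀ ^ m ≠ 0 := pow_ne_zero _ hd₀
  have hB : P ^ ((N : ℤ) * v₁) ≠ 0 := zpow_ne_zero _ hP
  have hBinv : P ^ (-(N : ℤ) * v₁) = (P ^ ((N : ℤ) * v₁))⁻¹ := by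
    rw [← zpow_neg]
    congr 1
    ring
  have h1 : u ^ (N : ℤ) = E * P ^ ((N : ℤ) * v₁) * W ^ (m : ℤ) := by
    rw [zpow_natCast, zpow_natCast, hWm, ← hG, hBinv]
    field_simp
  have h2 : u = (u ^ (N : ℤ)) ^ α * (u ^ β) ^ (m : ℤ) := by
    rw [← zpow_mul, ← zpow_mul, ← zpow_add₀ hu, mul_comm (N : ℤ) α, hαβ, zpow_one]
  have h3 : (W ^ (m : ℤ)) ^ α = (W ^ α) ^ (m : ℤ) := by
    rw [← zpow_mul, ← zpow_mul, mul_comm]
  calc u = (u ^ (N : ℤ)) ^ α * (u ^ β) ^ (m : ℤ) := h2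
    _ = (E * P ^ ((N : ℤ) * v₁) * W ^ (m : ℤ)) ^ α * (u ^ β) ^ (m : ℤ) := by rw [h1]
    _ = P ^ ((N : ℤ) * v₁ * α) * E ^ α * (W ^ α * u ^ β) ^ m := by
      rw [mul_zpow, mul_zpow, h3, ← zpow_mul, zpow_natCast, zpow_natCast, mul_pow]
      ring

/-- **(A3) NODE-PURE, tame thickness** (leaf of `Ribet/H704/CoreOutSpec.lean`). -/
theorem nodePureTame : CoreOut.NodePureTameStatement := by
  intro R K _ _ _ _ _ _ _ _ 𝔭₁ 𝔭₂ π x y hN m N hm hcop D D' hDD u hu hdiv v₁ v₂ hv₁ hv₂ hdvd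
  rcases Nat.eq_zero_or_pos N with rfl | hNpos
  · have hm1 : m = 1 := by simpa using hcop
    subst hm1
    exact ⟨u, 0, 1, hu, isUnit_one, by simp⟩
  obtain ⟨d₀, ε₀, hd₀, hG, -, -⟩ := H868.tame_node hN hNpos hDD hm hcop hu hdiv hv₁ hv₂
  obtain ⟨c, hc⟩ := hdvd
  obtain ⟨α, β, hαβ⟩ : IsCoprime (N : ℤ) (m : ℤ) := Nat.isCoprime_iff_coprime.mpr hcop
  have hinj : Function.Injective (algebraMap R K) := IsFractionRing.injective R K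
  have hπ0 : π ≠ 0 := H132.isNode_pi_ne_zero hN
  have hP : algebraMap R K π ≠ 0 := fun h => hπ0 (hinj (by rw [h, map_zero]))
  have hD0 : D ≠ 0 := by
    rintro rfl
    have h0 : π ^ N = 0 := by rw [← hDD.mul_eq, zero_mul]
    exact hπ0 (pow_eq_zero_iff (Nat.pos_iff_ne_zero.mp hNpos) |>.mp h0)
  have hDk : algebraMap R K D ≠ 0 := fun h => hD0 (hinj (by rw [h, map_zero]))
  -- the unit `ε₀ ^ α`
  have hε : algebraMap R K ((ε₀ ^ α : Rˣ) : R) = (algebraMap R K (ε₀ : R)) ^ α := by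
    have e1 : algebraMap R K ((ε₀ ^ α : Rˣ) : R) =
        ((Units.map (algebraMap R K : R →* K) (ε₀ ^ α) : Kˣ) : K) := rfl
    rw [e1, map_zpow, Units.val_zpow_eq_zpow_val]
    rfl
  refine ⟨(algebraMap R K D ^ (-c) * d₀⁻¹) ^ α * u ^ β, (N : ℤ) * v₁ * α,
    ((ε₀ ^ α : Rˣ) : R), ?_, (ε₀ ^ α).isUnit, ?_⟩
  · exact mul_ne_zero (zpow_ne_zero _ (mul_ne_zero (zpow_ne_zero _ hDk) (inv_ne_zero hd₀)))
      (zpow_ne_zero _ hu)
  · rw [hε]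
    exact npt_bezout hu hP hDk hd₀ hc (by linarith) hG

end Fermat.Agent.Ribet.H7
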