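import Fermat.Agent.Ribet.H704.TwoLevelSpec
import Fermat.Agent.Ribet.H7.NodePureTame
import Fermat.Agent.Ribet.H699.PureDescent
import Fermat.Agent.Ribet.H939.CoverNode2

/-!
# RIBET row 38, WALL-p, (S4) CORE-OUT, WILD half: the TWO-LEVEL NODE lemma (helper7)

`twoLevelNode : H704.CoreOut.TwoLevelNodeStatement` (frozen in `Ribet/H704/TwoLevelSpec.lean`),
UNCONDITIONAL.

Proof (as announced in the spec): `H939.coverNode2` (A5) gives cover node rings `R' ⊆ R''`;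
hypothesis `(V)` + `H7.nodePureTame` (A3): `u₁ = π₁ ^ a · ε' · d ^ p` in `R'`;
`π₁ = η₂ π₂ ^ e₂` and `R' ⊆ R''`: `G₂ = c₂ u₁ b ^ p = π₂ ^ (a₃ + e₂ a) · (η₃ η₂ ^ a ε') · (d b) ^ p`
is pure in `R''`; `H699.pureDescent` (A2): `G₂` is pure in `R₂`.
-/

set_option autoImplicit false
set_option linter.unusedSectionVars false
set_option linter.style.haveILetI false
set_option maxHeartbeats 1000000

namespace Fermat.Agent.Ribet.H7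

open Fermat.Agent.Ribet.H704 Fermat.Agent.Ribet.H704.I6

/-- Integer powers of the image of a unit of `R` are (images of) units of any subalgebra. -/
theorem tln_unit_zpow {R L : Type*} [CommRing R] [Field L] [Algebra R L] (S : Subalgebra R L)
    {η : R} (hη : IsUnit η) (a : ℤ) :
    ∃ ν : S, IsUnit ν ∧ (ν : L) = (algebraMap R L η) ^ a := by
  obtain ⟨uη, rfl⟩ := hη
  set v : Sˣ := Units.map (algebraMap R S : R →* S) uη with hv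
  refine ⟨((v ^ a : Sˣ) : S), (v ^ a).isUnit, ?_⟩
  have e1 : (((v ^ a : Sˣ) : S) : L) =
      ((Units.map (algebraMap S L : S →* L) (v ^ a) : Lˣ) : L) := rfl
  rw [e1, map_zpow, Units.val_zpow_eq_zpow_val]
  rfl

/-- The image of a unit of `R'` under an inclusion `R' ⊆ R''` of subalgebras (over different
base rings) is a unit of `R''`. -/
theorem tln_unit_map {R₁ R₂ L₁ L₂ : Type*} [CommRing R₁] [CommRing R₂] [Field L₁] [Field L₂]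
    [Algebra R₁ L₁] [Algebra R₂ L₂] (φ : L₁ →+* L₂) (R' : Subalgebra R₁ L₁)
    (R'' : Subalgebra R₂ L₂) (hsub : ∀ z : L₁, z ∈ R' → φ z ∈ R'') {ε' : R'}
    (hε' : IsUnit ε') : ∃ ν : R'', IsUnit ν ∧ (ν : L₂) = φ (ε' : L₁) := by
  obtain ⟨uε, rfl⟩ := hε'
  refine ⟨⟨φ ((uε : R') : L₁), hsub _ (uε : R').2⟩, ?_, rfl⟩
  refine IsUnit.of_mul_eq_one ⟨φ (((uε⁻¹ : R'ˣ) : R') : L₁), hsub _ ((uε⁻¹ : R'ˣ) : R').2⟩ ?_
  apply Subtype.ext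
  show φ ((uε : R') : L₁) * φ (((uε⁻¹ : R'ˣ) : R') : L₁) = 1
  rw [← map_mul]
  have : ((uε : R') : L₁) * (((uε⁻¹ : R'ˣ) : R') : L₁) = 1 := by
    have h1 : ((uε : R') * ((uε⁻¹ : R'ˣ) : R') : R') = 1 := by simp
    calc ((uε : R') : L₁) * (((uε⁻¹ : R'ˣ) : R') : L₁)
        = (((uε : R') * ((uε⁻¹ : R'ˣ) : R') : R') : L₁) := rfl
      _ = ((1 : R') : L₁) := by rw [h1]
      _ = 1 := rfl
  rw [this, map_one]

/-- **TWO-LEVEL NODE** (`H704.CoreOut.TwoLevelNodeStatement`, verbatim). -/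
theorem twoLevelNode : CoreOut.TwoLevelNodeStatement := by
  intro R₁ R₂ K₁ K₂ L₁ L₂
  intro _ _ _ _ _ _ _ _ _ _ _ _ _ _ _ _ _ _ _ _ _ _ _ _ _ _ _ _ _
  intro 𝔭₁ 𝔭₂ π₁ x₁ y₁ hN₁ 𝔮₁ 𝔮₂ π₂ x₂ y₂ hN₂ hk₁ hk₂ hinj hq₁ hq₂ η₂ e₂ hη₂ hπ p hp ζ hζ lam ε η e
    hlamζ hε hlam_p hη he hlam g hg₁ hg₂ hdiv hs₁ hs₂ h hh hadj₁ hadj₂ N hcop D D' hDD u₁ hu₁
    hu₁div hV G₂ c₂ b hG₂ hb hc₂ hG hG₂div
  classical
  obtain ⟨R', R'', hloc', hloc'', ⟨hic', hnoe', hfr', hN', hlo₁', hlo₂'⟩,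
    ⟨hic'', hnoe'', hfr'', hN'', hlo₁'', hlo₂''⟩, hsub⟩ :=
    H939.coverNode2 R₁ R₂ K₁ K₂ L₁ L₂ 𝔭₁ 𝔭₂ π₁ x₁ y₁ hN₁ 𝔮₁ 𝔮₂ π₂ x₂ y₂ hN₂ hk₁ hk₂ hinj hq₁ hq₂
      p hp ζ hζ lam ε η e hlamζ hε hlam_p hη he hlam g hg₁ hg₂ hdiv hs₁ hs₂ h hh hadj₁ hadj₂
  haveI := hic'
  haveI := hnoe'
  haveI := hfr'
  -- (A3) in `R'`
  have hDD' : IsUnitPair (𝔭₁.map (algebraMap R₁ R')) (𝔭₂.map (algebraMap R₁ R'))
      (algebraMap R₁ R' π₁) (algebraMap R₁ R' D) (algebraMap R₁ R' D') N :=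
    ⟨by rw [← map_mul, hDD.mul_eq, map_pow], fun h => hDD.hD (hlo₁' D h),
      fun h => hDD.hD' (hlo₂' D' h)⟩
  have hdiv' : HorDivVal (R := R') L₁ (algebraMap R₁ R' π₁) p u₁ := by
    intro V hV' hR hπV
    exact hu₁div V hV' (fun r => hR (algebraMap R₁ R' r)) hπV
  obtain ⟨w₁, hw₁⟩ := H132.exists_valAt (K := L₁) (H132.vertData_left hN') hu₁
  obtain ⟨w₂, hw₂⟩ := H132.exists_valAt (K := L₁) (H132.vertData_right hN') hu₁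
  have hw := hV R' hloc' hic' hnoe' hfr' hN' hlo₁' hlo₂' w₁ w₂ hw₁ hw₂
  obtain ⟨d, a, ε', hd, hε', hu₁eq⟩ := nodePureTame R' L₁ _ _ _ _ _ hN' p N hp.ne_zero hcop
    _ _ hDD' u₁ hu₁ hdiv' w₁ w₂ hw₁ hw₂ hw
  -- transport to `L₂`
  obtain ⟨η₃, a₃, hη₃, hc₂eq⟩ := hc₂
  obtain ⟨ν₂, hν₂, hν₂eq⟩ := tln_unit_zpow R'' hη₂ a
  obtain ⟨ν₃, hν₃, hν₃eq⟩ := tln_unit_zpow R'' hη₃ 1
  obtain ⟨νε, hνε, hνεeq⟩ := tln_unit_map (algebraMap L₁ L₂) R' R'' hsub hε'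
  have hP₁ : algebraMap L₁ L₂ (algebraMap R' L₁ (algebraMap R₁ R' π₁)) =
      algebraMap R₂ L₂ η₂ * algebraMap R₂ L₂ π₂ ^ e₂ := by
    have e1 : algebraMap R' L₁ (algebraMap R₁ R' π₁) = algebraMap R₁ L₁ π₁ := rfl
    rw [e1, ← IsScalarTower.algebraMap_apply R₁ L₁ L₂, IsScalarTower.algebraMap_apply R₁ R₂ L₂,
      hπ, map_mul, map_pow]
  have hc₂L : algebraMap K₂ L₂ c₂ = algebraMap R₂ L₂ η₃ * algebraMap R₂ L₂ π₂ ^ a₃ := by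
    rw [hc₂eq, map_mul, map_zpow₀, ← IsScalarTower.algebraMap_apply R₂ K₂ L₂,
      ← IsScalarTower.algebraMap_apply R₂ K₂ L₂]
  have hd' : algebraMap L₁ L₂ d ≠ 0 := by
    rw [Ne, map_eq_zero_iff _ (algebraMap L₁ L₂).injective]
    exact hd
  refine H699.pureDescent R₂ K₂ L₂ 𝔮₁ 𝔮₂ π₂ x₂ y₂ hN₂ R'' hloc'' hic'' hnoe'' hfr'' hN'' hlo₁''
    hlo₂'' p hp.ne_zero G₂ hG₂ hG₂div
    ⟨algebraMap L₁ L₂ d * b, a₃ + e₂ * a, ν₃ * ν₂ * νε, mul_ne_zero hd' hb,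
      (hν₃.mul hν₂).mul hνε, ?_⟩
  have hcoe : ((ν₃ * ν₂ * νε : R'') : L₂) = (ν₃ : L₂) * (ν₂ : L₂) * (νε : L₂) := rfl
  have hεL : algebraMap L₁ L₂ (algebraMap R' L₁ ε') = algebraMap L₁ L₂ (ε' : L₁) := rfl
  rw [hG, hc₂L, hu₁eq, map_mul, map_mul, map_zpow₀, map_pow, hP₁, hcoe, hν₂eq, hν₃eq, hνεeq,
    hεL, zpow_one, mul_zpow, ← zpow_natCast (algebraMap R₂ L₂ π₂) e₂, ← zpow_mul,
    zpow_add₀, mul_pow]
  · ring
  · -- `π₂ ≠ 0` in `L₂`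
    have hπ₂0 : π₂ ≠ 0 := H132.isNode_pi_ne_zero hN₂
    intro h0
    apply hπ₂0
    have hinj₂ : Function.Injective (algebraMap R₂ L₂) := by
      rw [IsScalarTower.algebraMap_eq R₂ K₂ L₂]
      exact (algebraMap K₂ L₂).injective.comp (IsFractionRing.injective R₂ K₂)
    exact hinj₂ (by rw [h0, map_zero])

end Fermat.Agent.Ribet.H7
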